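import Fermat.Agent.DSP.EisB

set_option autoImplicit false
set_option linter.unusedSectionVars false

/-!
# A weight one Eisenstein family for `Γ₁(ℓ)` congruent to a character modulo `ℓ`
-/

open UpperHalfPlane EisensteinSeries ModularForm Matrix.SpecialLinearGroup CongruenceSubgroup
open scoped MatrixGroups ModularForm Manifold OnePoint Topology
open Fermat.Agent.X0Places (HasQExp)
open Function.Periodic (qParam)
open Fermat.Agent.WOne
open PowerSeries (C)

namespace Fermat.Agent.DSP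

noncomputable section

theorem hasQExp_expand {M : ℕ} [NeZero M] {f : ℍ → ℂ} {P : PowerSeries ℂ} (hf : HasQExp 1 f P) :
    HasQExp M f (PowerSeries.mk fun r => if M ∣ r then P.coeff (r / M) else 0) := by
  have hM0 : M ≠ 0 := NeZero.ne M
  have hM : (M : ℂ) ≠ 0 := by exact_mod_cast hM0
  intro τ
  have hinj : Function.Injective (fun n : ℕ => M * n) := fun x y h =>
    Nat.eq_of_mul_eq_mul_left (Nat.pos_of_ne_zero hM0) h
  refine (hinj.hasSum_iff ?_).mp ?_
  · intro r hr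
    have : ¬ M ∣ r := fun ⟨n, hn⟩ => hr ⟨n, hn.symm⟩
    rw [PowerSeries.coeff_mk, if_neg this, zero_mul]
  · refine (hf τ).congr_fun ?_ |> fun h => h
    intro n
    simp only [Function.comp, PowerSeries.coeff_mk]
    rw [if_pos (dvd_mul_right M n), Nat.mul_div_cancel_left _ (Nat.pos_of_ne_zero hM0), pow_mul]
    congr 2
    rw [qParam, qParam, ← Complex.exp_nat_mul]
    congr 1
    push_cast
    field_simp

theorem coeff_of_hasQExp {M : ℕ} [NeZero M] {f : ℍ → ℂ} {P Q : PowerSeries ℂ}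
    (hf : HasQExp 1 f P) (hg : HasQExp M f Q) (n : ℕ) : P.coeff n = Q.coeff (M * n) := by
  have hMR : (0 : ℝ) < M := by exact_mod_cast Nat.pos_of_ne_zero (NeZero.ne M)
  rw [hg.unique hMR (hasQExp_expand hf), PowerSeries.coeff_mk, if_pos (dvd_mul_right M n),
    Nat.mul_div_cancel_left _ (Nat.pos_of_ne_zero (NeZero.ne M))]

theorem exists_lift (V : ValuationSubring ℂ) (P : PowerSeries ℂ) (h : ∀ n, P.coeff n ∈ V) :
    ∃ Q : PowerSeries V, Q.map V.subtype = P := by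
  refine ⟨PowerSeries.mk fun n => ⟨P.coeff n, h n⟩, ?_⟩
  ext n
  simp

theorem Pser_coeff_mem (V : ValuationSubring ℂ) {M : ℕ} [NeZero M] (hζ : zetaM M ∈ V) (c : ℂ)
    (k : ℕ) (a b : ZMod M) {r : ℕ} (hr : r ≠ 0) :
    (Pser M ℂ (zetaM M) c k a b).coeff r ∈ V := by
  rw [Pser, PowerSeries.coeff_mk, if_neg hr]
  refine sum_mem fun x _ => ?_
  rw [dterm]
  refine mul_mem (pow_mem (natCast_mem V _) _) (add_mem ?_ (mul_mem (pow_mem
    (neg_mem (one_mem _)) _) ?_))
  · split_ifs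
    · exact pow_mem hζ _
    · exact zero_mem _
  · split_ifs
    · exact pow_mem hζ _
    · exact zero_mem _

variable (ℓ : ℕ) [hℓ : Fact ℓ.Prime]

/-- the normalising constant -/
def cE : ℂ := (1 - zetaM ℓ) / 3

/-- the expansion of the weight one family in `q_ℓ` -/
def PE (d : (ZMod ℓ)ˣ) : PowerSeries ℂ :=
  C (cE ℓ) * Pser ℓ ℂ (zetaM ℓ) (cst ℓ 4 (d : ZMod ℓ)) 4 0 d *
    (Pser ℓ ℂ (zetaM ℓ) (cst ℓ 3 (d : ZMod ℓ)) 3 0 d)⁻¹

theorem hasQExp_Efam (h5 : 5 ≤ ℓ) (d : (ZMod ℓ)ˣ) : HasQExp ℓ (Efam ℓ (cE ℓ) d) (PE ℓ d) := by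
  have hMR : (0 : ℝ) < ℓ := by exact_mod_cast hℓ.out.pos
  have hodd : Odd ℓ := hℓ.out.odd_of_ne_two (by omega)
  have h3 := (hasQExp_gN ℓ (k := 3) le_rfl ![0, (d : ZMod ℓ)])
  have h4 := (hasQExp_gN ℓ (k := 4) (by norm_num) ![0, (d : ZMod ℓ)])
  have h3' := h3.inv hMR (mdiff_gN ℓ le_rfl _)
    (gN_three_ne_zero ℓ (two_smul_ne ℓ hodd (vec_ne_zero ℓ d))) (by
      have e : (![0, (d : ZMod ℓ)] : Fin 2 → ZMod ℓ) 0 = 0 := rfl
      rw [Pser, PowerSeries.coeff_mk, if_pos rfl, if_pos e]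
      exact cst_three_ne_zero ℓ hodd d.ne_zero)
  exact ((HasQExp.const (cE ℓ)).mul h4).mul h3'

theorem PE_spec (h5 : 5 ≤ ℓ) (V : ValuationSubring ℂ) (hV : V.valuation (ℓ : ℂ) < 1)
    (d : (ZMod ℓ)ˣ) : ∃ X : PowerSeries V, X.map V.subtype = PE ℓ d ∧
      ∃ u : IsLocalRing.ResidueField V, ((d : ZMod ℓ).val : IsLocalRing.ResidueField V) * u = 1 ∧
        X.map (IsLocalRing.residue V) = C u := by
  have hodd : Odd ℓ := hℓ.out.odd_of_ne_two (by omega)
  have hprim := isPrimitiveRoot_zetaM ℓ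
  -- the root of unity
  have hζ : zetaM ℓ ∈ V := by
    rcases V.mem_or_inv_mem (zetaM ℓ) with h | h
    · exact h
    · have h1 : zetaM ℓ = ((zetaM ℓ)⁻¹) ^ (ℓ - 1) := by
        have h2 : zetaM ℓ ^ (ℓ - 1) * zetaM ℓ = 1 := by
          rw [← pow_succ, Nat.sub_add_cancel hℓ.out.one_lt.le, hprim.pow_eq_one]
        rw [inv_pow]
        exact eq_inv_of_mul_eq_one_right h2
      rw [h1]
      exact pow_mem h _
  set κ := IsLocalRing.ResidueField V with hκ
  set red := IsLocalRing.residue V with hred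
  have hℓ0 : ((ℓ : ℕ) : κ) = 0 := by
    have h1 : ((ℓ : ℕ) : V) ∈ IsLocalRing.maximalIdeal V := by
      rw [V.valuation_lt_one_iff]
      simpa using hV
    have h2 : red ((ℓ : ℕ) : V) = 0 := (IsLocalRing.residue_eq_zero_iff _).mpr h1
    rwa [map_natCast] at h2
  have : CharP κ ℓ := (CharP.charP_iff_prime_eq_zero hℓ.out).mpr hℓ0
  have h2κ : (2 : κ) ≠ 0 := by
    intro h
    have h' : ((2 : ℕ) : κ) = 0 := by exact_mod_cast h
    rw [CharP.cast_eq_zero_iff κ ℓ] at h'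
    exact absurd (Nat.le_of_dvd (by norm_num) h') (by omega)
  have h3κ : (3 : κ) ≠ 0 := by
    intro h
    have h' : ((3 : ℕ) : κ) = 0 := by exact_mod_cast h
    rw [CharP.cast_eq_zero_iff κ ℓ] at h'
    exact absurd (Nat.le_of_dvd (by norm_num) h') (by omega)
  have hdκ : ((d : ZMod ℓ).val : κ) ≠ 0 := by
    intro h
    rw [CharP.cast_eq_zero_iff κ ℓ] at h
    have h1 : 0 < (d : ZMod ℓ).val := Nat.pos_of_ne_zero (by
      rw [Ne, ZMod.val_eq_zero]; exact d.ne_zero)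
    exact absurd (Nat.le_of_dvd h1 h) (not_le.mpr (d : ZMod ℓ).val_lt)
  let ζ : V := ⟨zetaM ℓ, hζ⟩
  have hζred : red ζ = 1 := by
    have h1 : (red ζ - 1) ^ ℓ = 0 := by
      rw [sub_pow_char, one_pow, ← map_pow]
      have : ζ ^ ℓ = 1 := Subtype.ext (by simpa using hprim.pow_eq_one)
      rw [this, map_one, sub_self]
    exact sub_eq_zero.mp (pow_eq_zero_iff hℓ.out.ne_zero |>.mp h1)
  set w : V := ζ ^ (d : ZMod ℓ).val with hw
  have hwc : (w : ℂ) = zetaM ℓ ^ (d : ZMod ℓ).val := rfl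
  have hwred : red w = 1 := by rw [hw, map_pow, hζred, one_pow]
  have hw1 : (1 - (w : ℂ)) ≠ 0 := by
    rw [sub_ne_zero, hwc]
    exact (hprim.pow_ne_one_of_pos_of_lt (by rw [Ne, ZMod.val_eq_zero]; exact d.ne_zero)
      (d : ZMod ℓ).val_lt).symm
  have hdne : (d : ZMod ℓ) ≠ 0 := d.ne_zero
  have hcst3 : cst ℓ 3 (d : ZMod ℓ) = (w : ℂ) * (1 + w) / (1 - w) ^ 3 := by
    rw [cst_eq (Or.inl rfl) hdne, ratR, if_pos rfl, hwc]
  have hcst4 : cst ℓ 4 (d : ZMod ℓ) = (w : ℂ) * (1 + 4 * w + w ^ 2) / (1 - w) ^ 4 := by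
    rw [cst_eq (Or.inr rfl) hdne, ratR, if_neg (by norm_num), hwc]
  set P3 := Pser ℓ ℂ (zetaM ℓ) (cst ℓ 3 (d : ZMod ℓ)) 3 0 d with hP3
  set P4 := Pser ℓ ℂ (zetaM ℓ) (cst ℓ 4 (d : ZMod ℓ)) 4 0 d with hP4
  have hP30 : P3.coeff 0 = cst ℓ 3 (d : ZMod ℓ) := by
    rw [hP3, Pser, PowerSeries.coeff_mk, if_pos rfl, if_pos rfl]
  have hP40 : P4.coeff 0 = cst ℓ 4 (d : ZMod ℓ) := by
    rw [hP4, Pser, PowerSeries.coeff_mk, if_pos rfl, if_pos rfl]
  obtain ⟨Q3, hQ3⟩ := exists_lift V (P3 - C (P3.coeff 0)) (fun n => by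
    rw [map_sub, PowerSeries.coeff_C]
    split_ifs with h
    · rw [h, sub_self]; exact zero_mem _
    · rw [sub_zero]; exact Pser_coeff_mem V hζ _ _ _ _ h)
  obtain ⟨Q4, hQ4⟩ := exists_lift V (P4 - C (P4.coeff 0)) (fun n => by
    rw [map_sub, PowerSeries.coeff_C]
    split_ifs with h
    · rw [h, sub_self]; exact zero_mem _
    · rw [sub_zero]; exact Pser_coeff_mem V hζ _ _ _ _ h)
  let A3 : PowerSeries V := C (w * (1 + w)) + C ((1 - w) ^ 3) * Q3
  let A4 : PowerSeries V := C (w * (1 + 4 * w + w ^ 2)) + C ((1 - w) ^ 4) * Q4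
  have hA3 : A3.map V.subtype = C ((1 - (w : ℂ)) ^ 3) * P3 := by
    change PowerSeries.map V.subtype (C (w * (1 + w)) + C ((1 - w) ^ 3) * Q3) = _
    rw [map_add, map_mul (PowerSeries.map V.subtype), PowerSeries.map_C, PowerSeries.map_C, hQ3, hP30, hcst3]
    have e1 : V.subtype ((1 - w) ^ 3) = (1 - (w : ℂ)) ^ 3 := rfl
    have e3 : C (V.subtype (w * (1 + w))) = C ((w : ℂ) * (1 + w)) := rfl
    rw [e1, e3, mul_sub, ← map_mul]
    have : (1 - (w : ℂ)) ^ 3 * ((w : ℂ) * (1 + w) / (1 - w) ^ 3) = (w : ℂ) * (1 + w) := by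
      field_simp
    rw [this]
    ring
  have hA4 : A4.map V.subtype = C ((1 - (w : ℂ)) ^ 4) * P4 := by
    change PowerSeries.map V.subtype (C (w * (1 + 4 * w + w ^ 2)) + C ((1 - w) ^ 4) * Q4) = _
    rw [map_add, map_mul (PowerSeries.map V.subtype), PowerSeries.map_C, PowerSeries.map_C, hQ4, hP40, hcst4]
    have e1 : V.subtype ((1 - w) ^ 4) = (1 - (w : ℂ)) ^ 4 := rfl
    have e3 : C (V.subtype (w * (1 + 4 * w + w ^ 2))) = C ((w : ℂ) * (1 + 4 * w + w ^ 2)) := rfl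
    rw [e1, e3, mul_sub, ← map_mul]
    have : (1 - (w : ℂ)) ^ 4 * ((w : ℂ) * (1 + 4 * w + w ^ 2) / (1 - w) ^ 4) =
        (w : ℂ) * (1 + 4 * w + w ^ 2) := by
      field_simp
    rw [this]
    ring
  have hA3r : A3.map red = C 2 := by
    change PowerSeries.map red (C (w * (1 + w)) + C ((1 - w) ^ 3) * Q3) = _
    rw [map_add, map_mul (PowerSeries.map red), PowerSeries.map_C, PowerSeries.map_C]
    have e1 : red (w * (1 + w)) = 2 := by
      rw [map_mul, map_add, map_one, hwred]; norm_num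
    have e2 : red ((1 - w) ^ 3) = 0 := by
      rw [map_pow, map_sub, map_one, hwred, sub_self]; norm_num
    rw [e1, e2, map_zero, zero_mul, add_zero]
  have hA4r : A4.map red = C 6 := by
    change PowerSeries.map red (C (w * (1 + 4 * w + w ^ 2)) + C ((1 - w) ^ 4) * Q4) = _
    rw [map_add, map_mul (PowerSeries.map red), PowerSeries.map_C, PowerSeries.map_C]
    have e4 : red (4 : V) = 4 := map_ofNat _ 4
    have e1 : red (w * (1 + 4 * w + w ^ 2)) = 6 := by
      have e5 : red (w ^ 2) = 1 := by rw [map_pow red w 2, hwred, one_pow]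
      rw [map_mul red, map_add, map_add, map_one, map_mul red, e5, hwred, e4]; norm_num
    have e2 : red ((1 - w) ^ 4) = 0 := by
      rw [map_pow, map_sub, map_one, hwred, sub_self]; norm_num
    rw [e1, e2, map_zero, zero_mul, add_zero]
  have hA3u : IsUnit A3 := by
    rw [PowerSeries.isUnit_iff_constantCoeff, ← IsLocalRing.residue_ne_zero_iff_isUnit]
    have h1 : red (PowerSeries.constantCoeff A3) = PowerSeries.constantCoeff (A3.map red) := by
      rw [← PowerSeries.coeff_zero_eq_constantCoeff_apply,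
        ← PowerSeries.coeff_zero_eq_constantCoeff_apply, PowerSeries.coeff_map]
    rw [← hred, h1, hA3r]
    simpa using h2κ
  obtain ⟨B3, hB3⟩ := hA3u.exists_right_inv
  set B := A4 * B3 with hB
  have hBr : B.map red = C 3 := by
    have h1 : C (2 : κ) * B3.map red = 1 := by
      rw [← hA3r, ← map_mul, hB3, map_one]
    have h2 : C (2 : κ) * (B.map red) = C 2 * C 3 := by
      rw [hB, map_mul, hA4r, mul_left_comm, h1, mul_one, ← map_mul]
      norm_num
    exact mul_left_cancel₀ (by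
      intro h
      rw [← map_zero (C (R := κ))] at h
      exact h2κ (PowerSeries.C_injective h)) h2
  have hBc : B.map V.subtype * P3 = C (1 - (w : ℂ)) * P4 := by
    have h1 : C ((1 - (w : ℂ)) ^ 3) * P3 * B3.map V.subtype = 1 := by
      rw [← hA3, ← map_mul, hB3, map_one]
    have h2 : C ((1 - (w : ℂ)) ^ 3) * (B.map V.subtype * P3) =
        C ((1 - (w : ℂ)) ^ 3) * (C (1 - (w : ℂ)) * P4) := by
      rw [hB, map_mul, hA4]
      calc _ = C ((1 - (w : ℂ)) ^ 4) * P4 * (C ((1 - (w : ℂ)) ^ 3) * P3 * B3.map V.subtype) := by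
            ring
        _ = _ := by
            rw [h1, mul_one, ← mul_assoc, ← map_mul, ← pow_succ]
    exact mul_left_cancel₀ (by
      intro h
      rw [← map_zero (C (R := ℂ))] at h
      exact pow_ne_zero _ hw1 (PowerSeries.C_injective h)) h2
  -- the unit
  set s : V := ∑ i ∈ Finset.range (d : ZMod ℓ).val, ζ ^ i with hs
  have hsred : red s = ((d : ZMod ℓ).val : κ) := by
    rw [hs, map_sum]
    simp only [map_pow, hζred, one_pow]
    simp [-ZMod.natCast_val]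
  have hsmul : (1 - ζ) * s = 1 - w := by
    rw [hs, hw, mul_neg_geom_sum]
  have hsu : IsUnit ((3 : V) * s) := by
    rw [← IsLocalRing.residue_ne_zero_iff_isUnit, map_mul]
    have h3 : IsLocalRing.residue V (3 : V) = 3 := map_ofNat _ 3
    rw [h3, ← hred, hsred]
    exact mul_ne_zero h3κ hdκ
  obtain ⟨t, ht⟩ := hsu.exists_right_inv
  have htc : (t : ℂ) * (1 - w) = cE ℓ := by
    have h1 : (3 : ℂ) * s * t = 1 := by
      have h := congrArg V.subtype ht
      rw [map_mul, map_mul, map_ofNat, map_one] at h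
      exact h
    have h2 : (1 - zetaM ℓ) * (s : ℂ) = 1 - w := by
      have h := congrArg V.subtype hsmul
      rw [map_mul, map_sub, map_sub, map_one] at h
      exact h
    rw [← h2, cE]
    linear_combination (1 - zetaM ℓ) / 3 * h1
  refine ⟨C t * B, ?_, red t * 3, ?_, ?_⟩
  · rw [PE, ← hP3, ← hP4, PowerSeries.eq_mul_inv_iff_mul_eq]
    · rw [map_mul, mul_assoc, hBc, PowerSeries.map_C, ← mul_assoc, ← map_mul, ← htc]
      rfl
    · rw [← PowerSeries.coeff_zero_eq_constantCoeff, hP30]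
      exact cst_three_ne_zero ℓ hodd hdne
  · have h1 : red 3 * red s * red t = 1 := by rw [← map_mul, ← map_mul, ht, map_one]
    have h3 : red (3 : V) = 3 := map_ofNat _ 3
    rw [h3, hsred] at h1
    linear_combination h1
  · rw [map_mul, hBr, PowerSeries.map_C, ← map_mul]

/-- **The weight one Eisenstein family modulo `ℓ`.** -/
theorem exists_eis_one (h5 : 5 ≤ ℓ) :
    ∃ E : (ZMod ℓ)ˣ → ℍ → ℂ, IsFamForm ℓ 1 E ∧
      ∀ V : ValuationSubring ℂ, V.valuation (ℓ : ℂ) < 1 → ∀ d : (ZMod ℓ)ˣ,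
        (∀ n, PowerSeries.coeff n (qExpansion 1 (E d)) ∈ V) ∧
        (∀ n, n ≠ 0 → V.valuation (PowerSeries.coeff n (qExpansion 1 (E d))) < 1) ∧
        V.valuation (((d : ZMod ℓ).val : ℂ) * PowerSeries.coeff 0 (qExpansion 1 (E d)) - 1) < 1 := by
  have hodd : Odd ℓ := hℓ.out.odd_of_ne_two (by omega)
  have hE := isFamForm_Efam ℓ hodd (cE ℓ)
  refine ⟨Efam ℓ (cE ℓ), hE, fun V hV d => ?_⟩
  obtain ⟨X, hX1, u, hu, hX2⟩ := PE_spec ℓ h5 V hV d
  have h1 : HasQExp 1 (Efam ℓ (cE ℓ) d) (qExpansion 1 (Efam ℓ (cE ℓ) d)) := by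
    intro τ
    simpa [smul_eq_mul] using hasSum_qExpansion one_pos (by simpa using hE.periodic d) (hE.holo d)
      (hE.mem_perSub d).2.2 τ
  have h2 : ∀ n, PowerSeries.coeff n (qExpansion 1 (Efam ℓ (cE ℓ) d)) =
      ((PowerSeries.coeff (ℓ * n) X : V) : ℂ) := by
    intro n
    rw [coeff_of_hasQExp h1 (hasQExp_Efam ℓ h5 d) n, ← hX1, PowerSeries.coeff_map]
    rfl
  have h3 : ∀ n, IsLocalRing.residue V (PowerSeries.coeff (ℓ * n) X) = if n = 0 then u else 0 := by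
    intro n
    rw [← PowerSeries.coeff_map, hX2, PowerSeries.coeff_C]
    by_cases hn : n = 0
    · rw [if_pos hn, if_pos (by rw [hn, mul_zero])]
    · rw [if_neg hn, if_neg (mul_ne_zero hℓ.out.ne_zero hn)]
  refine ⟨fun n => ?_, fun n hn => ?_, ?_⟩
  · rw [h2]; exact (PowerSeries.coeff (ℓ * n) X).2
  · rw [h2, ← V.valuation_lt_one_iff, ← IsLocalRing.residue_eq_zero_iff, h3, if_neg hn]
  · rw [h2]
    have h4 : (((d : ZMod ℓ).val : ℂ) * ((PowerSeries.coeff (ℓ * 0) X : V) : ℂ) - 1) =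
        ((((d : ZMod ℓ).val : V) * PowerSeries.coeff (ℓ * 0) X - 1 : V) : ℂ) := by
      push_cast
      rfl
    rw [h4, ← V.valuation_lt_one_iff, ← IsLocalRing.residue_eq_zero_iff, map_sub, map_mul,
      map_natCast, h3, if_pos rfl, hu, map_one, sub_self]

end

end Fermat.Agent.DSP
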