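import Fermat.Agent.DSP.EisNZ
import Fermat.Agent.WOne.HFam
import Fermat.Agent.X0Places.JExp

set_option autoImplicit false
set_option linter.unusedSectionVars false

/-!
# The quotients of Eisenstein series of weight four and three: a family of weight one
-/

open UpperHalfPlane EisensteinSeries ModularForm Matrix.SpecialLinearGroup CongruenceSubgroup
open scoped MatrixGroups ModularForm Manifold OnePoint Topology
open Fermat.Agent.X0Places (HasQExp)
open Function.Periodic (qParam)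
open Fermat.Agent.WOne

namespace Fermat.Agent.DSP

noncomputable section

/-- shifting expansions -/
theorem hasQExp_shift {h : ℝ} {f : ℍ → ℂ} {P : PowerSeries ℂ} (hf : HasQExp h f P) (n : ℕ)
    (hP : ∀ r < n, P.coeff r = 0) :
    HasQExp h (fun τ => f τ / qParam h τ ^ n) (PowerSeries.mk fun m => P.coeff (m + n)) := by
  intro τ
  have hq : qParam h (τ : ℂ) ≠ 0 := Function.Periodic.qParam_ne_zero _
  have h1 := (hasSum_nat_add_iff' n).2 (hf τ)
  have h0 : ∑ i ∈ Finset.range n, P.coeff i * qParam h τ ^ i = 0 :=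
    Finset.sum_eq_zero fun i hi => by rw [hP i (Finset.mem_range.mp hi), zero_mul]
  rw [h0, sub_zero] at h1
  have h2 := h1.div_const (qParam h τ ^ n)
  refine h2.congr_fun ?_ |> fun h => h
  intro m
  rw [PowerSeries.coeff_mk, pow_add]
  field_simp

section Pser

variable {M : ℕ} [NeZero M] {K : Type*} [Field K] {ζ c : K} {k : ℕ} {a b : ZMod M}

theorem Pser_coeff_lt {r : ℕ} (h1 : r < a.val) (h2 : r < (-a).val) :
    (Pser M K ζ c k a b).coeff r = 0 := by
  have ha0 : a ≠ 0 := by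
    rintro rfl
    simp at h1
  rw [Pser, PowerSeries.coeff_mk]
  by_cases hr : r = 0
  · rw [if_pos hr, if_neg ha0]
  rw [if_neg hr]
  apply Finset.sum_eq_zero
  intro x hx
  obtain ⟨hx1, hx2⟩ := Nat.mem_divisorsAntidiagonal.mp hx
  have hle : x.1 ≤ r := Nat.le_of_dvd (Nat.pos_of_ne_zero hx2) ⟨x.2, hx1.symm⟩
  have hlt : x.1 < M := lt_of_le_of_lt hle (h1.trans a.val_lt)
  have e1 : ¬ ((x.1 : ZMod M) = a) := by
    intro h
    have := congrArg ZMod.val h
    rw [ZMod.val_cast_of_lt hlt] at this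
    omega
  have e2 : ¬ ((x.1 : ZMod M) = -a) := by
    intro h
    have := congrArg ZMod.val h
    rw [ZMod.val_cast_of_lt hlt] at this
    omega
  rw [dterm, if_neg e1, if_neg e2]; ring

theorem Pser_coeff_min (hζ : ζ ≠ 0) (ha : a ≠ -a) :
    (Pser M K ζ c k a b).coeff (min a.val (-a).val) ≠ 0 := by
  have hva : a.val ≠ (-a).val := fun h' => ha (ZMod.val_injective M h')
  have ha0 : a ≠ 0 := by rintro rfl; simp at ha
  have hna0 : -a ≠ 0 := neg_ne_zero.mpr ha0
  have hp1 : 0 < a.val := Nat.pos_of_ne_zero (by rwa [Ne, ZMod.val_eq_zero])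
  have hp2 : 0 < (-a).val := Nat.pos_of_ne_zero (by rwa [Ne, ZMod.val_eq_zero])
  set r := min a.val (-a).val with hr
  have hr0 : r ≠ 0 := by omega
  have hrM : r < M := lt_of_le_of_lt (min_le_left _ _) a.val_lt
  rw [Pser, PowerSeries.coeff_mk, if_neg hr0, Finset.sum_eq_single (r, 1)]
  · rw [dterm]
    simp only [mul_one, Nat.cast_one, one_pow, one_mul]
    rcases lt_or_gt_of_ne hva with h | h
    · have e0 : r = a.val := by omega
      have e1 : ((r : ℕ) : ZMod M) = a := by rw [e0, ZMod.natCast_zmod_val]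
      have e2 : ¬ ((r : ℕ) : ZMod M) = -a := by rw [e1]; exact ha
      rw [if_pos e1, if_neg e2, mul_zero, add_zero]
      exact pow_ne_zero _ hζ
    · have e0 : r = (-a).val := by omega
      have e1 : ((r : ℕ) : ZMod M) = -a := by rw [e0, ZMod.natCast_zmod_val]
      have e2 : ¬ ((r : ℕ) : ZMod M) = a := by rw [e1]; exact fun h => ha h.symm
      rw [if_neg e2, if_pos e1, zero_add]
      exact mul_ne_zero (pow_ne_zero _ (neg_ne_zero.mpr one_ne_zero)) (pow_ne_zero _ hζ)
  · intro x hx hne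
    obtain ⟨hx1, hx2⟩ := Nat.mem_divisorsAntidiagonal.mp hx
    have hle : x.1 ≤ r := Nat.le_of_dvd (Nat.pos_of_ne_zero hx2) ⟨x.2, hx1.symm⟩
    have hlt : x.1 < r := by
      rcases lt_or_eq_of_le hle with h | h
      · exact h
      · exfalso
        apply hne
        have h3 : x.2 = 1 := by
          rw [h] at hx1
          exact Nat.eq_of_mul_eq_mul_left (Nat.pos_of_ne_zero hr0) (hx1.trans (mul_one _).symm)
        exact Prod.ext h h3
    have hltM : x.1 < M := hlt.trans hrM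
    have e1 : ¬ ((x.1 : ZMod M) = a) := by
      intro h
      have := congrArg ZMod.val h
      rw [ZMod.val_cast_of_lt hltM] at this
      omega
    have e2 : ¬ ((x.1 : ZMod M) = -a) := by
      intro h
      have := congrArg ZMod.val h
      rw [ZMod.val_cast_of_lt hltM] at this
      omega
    rw [dterm, if_neg e1, if_neg e2]; ring
  · intro hx
    exact absurd (Nat.mem_divisorsAntidiagonal.mpr ⟨mul_one _, hr0⟩) hx

end Pser

variable (M : ℕ) [NeZero M]

/-- normalised Eisenstein series -/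
def gN (k : ℕ) (v : Fin 2 → ZMod M) (τ : ℍ) : ℂ := (M : ℂ) ^ k * (lipC k)⁻¹ * G M k v τ

theorem hasQExp_gN {k : ℕ} (hk : 3 ≤ k) (v : Fin 2 → ZMod M) :
    HasQExp M (gN M k v) (Pser M ℂ (zetaM M) (cst M k (v 1)) k (v 0) (v 1)) := by
  have hv : v = ![v 0, v 1] := by
    funext i
    fin_cases i <;> rfl
  have h := G_expansion M hk (v 0) (v 1)
  rw [← hv] at h
  exact h

theorem gN_smul (k : ℕ) (v : Fin 2 → ZMod M) (γ : SL(2, ℤ)) (τ : ℍ) :
    gN M k v (γ • τ) = denom (γ : GL (Fin 2) ℝ) τ ^ (k : ℤ) * gN M k (vact v γ) τ := by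
  have h := congrFun (G_slash M k v γ) τ
  rw [SL_slash_apply] at h
  have hd : denom (γ : GL (Fin 2) ℝ) τ ^ (k : ℤ) ≠ 0 := zpow_ne_zero _ (denom_ne_zero _ τ)
  have h1 : G M k v (γ • τ) = denom (γ : GL (Fin 2) ℝ) τ ^ (k : ℤ) * G M k (vact v γ) τ := by
    rw [← h, _root_.zpow_neg]
    field_simp
  rw [gN, gN, h1]
  ring

theorem mdiff_gN {k : ℕ} (hk : 3 ≤ k) (v : Fin 2 → ZMod M) : MDiff (gN M k v) := by
  have h1 := (mdiff_G M (k := k) (by exact_mod_cast hk) v).const_smul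
    ((M : ℂ) ^ k * (lipC k)⁻¹)
  exact h1

theorem gN_three_ne_zero {v : Fin 2 → ZMod M} (hv : 2 • v ≠ 0) (τ : ℍ) : gN M 3 v τ ≠ 0 := by
  have hM : (M : ℂ) ≠ 0 := by exact_mod_cast NeZero.ne M
  exact mul_ne_zero (mul_ne_zero (pow_ne_zero _ hM) (inv_ne_zero (lipC_ne_zero 3)))
    (G_three_ne_zero M hv τ)

/-- the quotient of the Eisenstein series -/
def EE (c : ℂ) (v : Fin 2 → ZMod M) (τ : ℍ) : ℂ := c * gN M 4 v τ * (gN M 3 v τ)⁻¹

theorem EE_slash (c : ℂ) (v : Fin 2 → ZMod M) (γ : SL(2, ℤ)) :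
    EE M c v ∣[(1 : ℤ)] γ = EE M c (vact v γ) := by
  funext τ
  rw [SL_slash_apply, EE, EE, gN_smul, gN_smul]
  have hd : denom (γ : GL (Fin 2) ℝ) τ ≠ 0 := denom_ne_zero _ τ
  have e4 : denom (γ : GL (Fin 2) ℝ) τ ^ ((4 : ℕ) : ℤ) = denom (γ : GL (Fin 2) ℝ) τ ^ 4 := by
    norm_cast
  have e3 : denom (γ : GL (Fin 2) ℝ) τ ^ ((3 : ℕ) : ℤ) = denom (γ : GL (Fin 2) ℝ) τ ^ 3 := by
    norm_cast
  rw [e4, e3, mul_inv, _root_.zpow_neg, zpow_one]
  field_simp

theorem mdiff_EE (c : ℂ) {v : Fin 2 → ZMod M} (hv : 2 • v ≠ 0) : MDiff (EE M c v) := by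
  have h3 : MDiff (fun τ : ℍ => (gN M 3 v τ)⁻¹) := by
    have h := mdiff_gN M le_rfl v
    rw [UpperHalfPlane.mdifferentiable_iff] at h ⊢
    have h2 : (fun z : ℍ => (gN M 3 v z)⁻¹) ∘ ofComplex = (gN M 3 v ∘ ofComplex)⁻¹ := rfl
    rw [h2]
    exact h.inv fun z _ => gN_three_ne_zero M hv _
  have h4 := (mdiff_gN M (k := 4) (by norm_num) v).const_smul c
  exact h4.mul h3

theorem zetaM_ne_zero : zetaM M ≠ 0 := by
  rw [zetaM]; exact Complex.exp_ne_zero _

theorem isPrimitiveRoot_zetaM : IsPrimitiveRoot (zetaM M) M :=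
  Complex.isPrimitiveRoot_exp M (NeZero.ne M)

theorem ratR_ne_zero {k : ℕ} (hk : k = 3) {w : ℂ} (h0 : w ≠ 0) (h1 : w ≠ 1) (h2 : w ≠ -1) :
    ratR k w ≠ 0 := by
  rw [ratR, if_pos hk]
  refine div_ne_zero (mul_ne_zero h0 ?_) (pow_ne_zero _ (sub_ne_zero.mpr h1.symm))
  intro h
  apply h2
  linear_combination h

/-- the constant term for `k = 3` -/
theorem cst_three_ne_zero (hM : Odd M) {b : ZMod M} (hb : b ≠ 0) : cst M 3 b ≠ 0 := by
  rw [cst_eq (Or.inl rfl) hb]
  have hz := isPrimitiveRoot_zetaM M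
  have hb0 : 0 < b.val := Nat.pos_of_ne_zero (by rwa [Ne, ZMod.val_eq_zero])
  apply ratR_ne_zero rfl (pow_ne_zero _ (zetaM_ne_zero M))
  · exact hz.pow_ne_one_of_pos_of_lt hb0.ne' b.val_lt
  · intro h
    have h1 : (zetaM M ^ b.val) ^ M = 1 := by
      rw [← pow_mul, mul_comm, pow_mul, hz.pow_eq_one, one_pow]
    rw [h, hM.neg_one_pow] at h1
    norm_num at h1

/-- boundedness of the quotients -/
theorem bounded_EE (hM : Odd M) (c : ℂ) {v : Fin 2 → ZMod M} (hv : v ≠ 0) :
    IsBoundedAtImInfty (EE M c v) := by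
  have hMR : (0 : ℝ) < M := by exact_mod_cast Nat.pos_of_ne_zero (NeZero.ne M)
  have h3 := hasQExp_gN M (k := 3) le_rfl v
  have h4 := hasQExp_gN M (k := 4) (by norm_num) v
  have key : ∀ (f g : ℍ → ℂ) (P Q : PowerSeries ℂ), HasQExp M f P → HasQExp M g Q →
      Q.coeff 0 ≠ 0 → (∀ τ, EE M c v τ = c * (f τ * (g τ)⁻¹)) → IsBoundedAtImInfty (EE M c v) := by
    intro f g P Q hf hg hQ he
    have h1 := (hf.tendsto hMR).mul ((hg.tendsto hMR).inv₀ hQ)
    have h2 := h1.const_mul c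
    have h5 : Filter.Tendsto (EE M c v) atImInfty (𝓝 (c * (P.coeff 0 * (Q.coeff 0)⁻¹))) :=
      h2.congr fun τ => (he τ).symm
    exact h5.isBigO_one ℝ
  by_cases ha : v 0 = 0
  · have hb : v 1 ≠ 0 := by
      intro hb
      apply hv
      funext i
      fin_cases i
      · exact ha
      · exact hb
    refine key _ _ _ _ h4 h3 ?_ (fun τ => by rw [EE]; ring)
    rw [Pser, PowerSeries.coeff_mk, if_pos rfl, if_pos ha]
    exact cst_three_ne_zero M hM hb
  · have hane : v 0 ≠ - v 0 := by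
      intro h
      have h1 : (2 : ZMod M) * v 0 = 0 := by
        rw [two_mul]
        nth_rewrite 2 [h]
        rw [add_neg_cancel]
      have h2 : IsUnit (2 : ZMod M) := by
        have := (ZMod.isUnit_iff_coprime 2 M).mpr (Nat.coprime_two_left.mpr hM)
        exact_mod_cast this
      exact ha ((h2.mul_right_eq_zero).mp h1)
    set r := min (v 0).val (-(v 0)).val with hr
    have s3 := hasQExp_shift h3 r (fun i hi => Pser_coeff_lt (by omega) (by omega))
    have s4 := hasQExp_shift h4 r (fun i hi => Pser_coeff_lt (by omega) (by omega))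
    refine key _ _ _ _ s4 s3 ?_ (fun τ => ?_)
    · rw [PowerSeries.coeff_mk, zero_add]
      exact Pser_coeff_min (zetaM_ne_zero M) hane
    · have hq : qParam M (τ : ℂ) ≠ 0 := Function.Periodic.qParam_ne_zero _
      rw [EE]
      field_simp

theorem two_smul_ne {v : Fin 2 → ZMod M} (hM : Odd M) (hv : v ≠ 0) : 2 • v ≠ 0 := by
  intro h
  apply hv
  have h2 : IsUnit (2 : ZMod M) := by
    have := (ZMod.isUnit_iff_coprime 2 M).mpr (Nat.coprime_two_left.mpr hM)
    exact_mod_cast this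
  funext i
  have h3 := congrFun h i
  rw [Pi.smul_apply, nsmul_eq_mul] at h3
  exact (h2.mul_right_eq_zero).mp (by exact_mod_cast h3)

/-- the weight one family -/
def Efam (c : ℂ) (d : (ZMod M)ˣ) : ℍ → ℂ := EE M c ![0, (d : ZMod M)]

theorem vec_ne_zero [Nontrivial (ZMod M)] (d : (ZMod M)ˣ) : (![0, (d : ZMod M)] : Fin 2 → ZMod M) ≠ 0 := by
  intro h
  have := congrFun h 1
  simp at this

theorem isFamForm_Efam [Nontrivial (ZMod M)] (hM : Odd M) (c : ℂ) : IsFamForm M 1 (Efam M c) where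
  fam := by
    intro γ d
    rw [Efam, EE_slash, Efam]
    congr 1
    have h0 : (((γ : SL(2, ℤ)) 1 0 : ℤ) : ZMod M) = 0 := Gamma0_mem.mp γ.2
    funext i
    fin_cases i
    · simp [vact, Matrix.vecMul, dotProduct, Fin.sum_univ_two, h0]
    · simp [vact, Matrix.vecMul, dotProduct, Fin.sum_univ_two, coe_del]
  holo d := mdiff_EE M c (two_smul_ne M hM (vec_ne_zero M d))
  bdd d γ := by
    rw [Efam, EE_slash]
    apply bounded_EE M hM
    intro h
    apply vec_ne_zero M d
    have h1 := congrArg (fun u => vact u γ⁻¹) h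
    simp only [← vact_mul, mul_inv_cancel, vact_one] at h1
    rw [h1]
    funext i
    simp [vact, Matrix.vecMul, dotProduct]

end

end Fermat.Agent.DSP
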