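import Fermat.Agent.WP.Exist
import Fermat.Agent.WOne.EisConst

set_option autoImplicit false

/-!
# The Eisenstein series of weight three have no zeros outside the two-torsion
-/

open UpperHalfPlane EisensteinSeries ModularForm
open scoped MatrixGroups Manifold Topology
open Fermat.Agent.X0Places (HasQExp)
open Function.Periodic (qParam)
open Fermat.Agent.WOne Fermat.Agent.JInv Fermat.Agent.WP

namespace Fermat.Agent.DSP

noncomputable section

/-- zeros of `℘'` are two-torsion points -/
theorem derivP_ne_zero (τ : ℍ) (s : ℂ) (hs : s ≠ 0) {z : ℂ} (hz : z ∉ (pairOf τ s hs).lattice)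
    (h2z : 2 * z ∉ (pairOf τ s hs).lattice) : (pairOf τ s hs).derivWeierstrassP z ≠ 0 := by
  set L := pairOf τ s hs with hL
  let W : WeierstrassCurve ℂ := ⟨0, 0, 0, -L.g₂ / 4, -L.g₃ / 4⟩
  have hc4 : W.c₄ = 12 * L.g₂ := by
    simp only [WeierstrassCurve.c₄, WeierstrassCurve.b₂, WeierstrassCurve.b₄, W]
    ring
  have hc6 : W.c₆ = 216 * L.g₃ := by
    simp only [WeierstrassCurve.c₆, WeierstrassCurve.b₂, WeierstrassCurve.b₄,
      WeierstrassCurve.b₆, W]
    ring
  have hrel : 1728 * W.Δ = W.c₄ ^ 3 - W.c₆ ^ 2 := W.c_relation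
  have hdisc := disc_pairOf τ s hs
  have hΔ : W.Δ ≠ 0 := by
    intro h0
    rw [h0, mul_zero, hc4, hc6, hdisc] at hrel
    have h1 : (2 * Real.pi / s : ℂ) ^ 12 ≠ 0 := pow_ne_zero _ (two_pi_div_ne hs)
    have h2 := discriminant_ne_zero τ
    exact mul_ne_zero h1 (mul_ne_zero (by norm_num) h2) hrel.symm
  have : W.IsElliptic := ⟨isUnit_iff_ne_zero.mpr hΔ⟩
  have hU : Unif L W := ⟨hc4.symm, hc6.symm⟩
  intro h0
  have hne : psi hU z ≠ 0 := fun h => hz ((psi_eq_zero_iff hU).mp h)
  have h1 : psi hU z = - psi hU z := by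
    rw [tc_eq_zero_iff' hne, tc_psi hU hz]
    exact h0
  have h2 : psi hU (2 * z) = 0 := by
    rw [two_mul, psi_add hU]
    nth_rewrite 2 [h1]
    exact add_neg_cancel _
  exact h2z ((psi_eq_zero_iff hU).mp h2)

/-- Eisenstein series of weight three as derivatives of the Weierstrass function -/
theorem G_three_eq (M : ℕ) [NeZero M] (a b : ℤ) (τ : ℍ) :
    G M 3 ![(a : ZMod M), (b : ZMod M)] τ =
      -(1 / 2) * ((M : ℂ) ^ 3)⁻¹ *
        (pairOf τ 1 one_ne_zero).derivWeierstrassP ((a * τ + b) / M) := by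
  have hM : (M : ℂ) ≠ 0 := by exact_mod_cast NeZero.ne M
  have hMZ : (M : ℤ) ≠ 0 := by exact_mod_cast NeZero.ne M
  let g : (Fin 2 → ℤ) → (Fin 2 → ℤ) := fun v => ![a - M * v 0, b - M * v 1]
  have hinj : Function.Injective g := by
    intro x y h
    have h0 := congrFun h 0
    have h1 := congrFun h 1
    simp only [g, Matrix.cons_val_zero, Matrix.cons_val_one] at h0 h1
    have k0 : x 0 = y 0 := mul_left_cancel₀ hMZ (by linarith)
    have k1 : x 1 = y 1 := mul_left_cancel₀ hMZ (by linarith)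
    funext i
    fin_cases i
    · exact k0
    · exact k1
  have hsupp : Function.support (fun x : Fin 2 → ℤ =>
      rcls M ![(a : ZMod M), (b : ZMod M)] x * eisSummand 3 x τ) ⊆ Set.range g := by
    intro x hx
    rw [Function.mem_support] at hx
    have h1 : (fun i => ((x i : ℤ) : ZMod M)) = ![(a : ZMod M), (b : ZMod M)] := by
      by_contra h
      exact hx (by rw [rcls, if_neg h, zero_mul])
    have e0 : ((x 0 : ℤ) : ZMod M) = (a : ZMod M) := congrFun h1 0
    have e1 : ((x 1 : ℤ) : ZMod M) = (b : ZMod M) := congrFun h1 1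
    have d0 : ((a - x 0 : ℤ) : ZMod M) = 0 := by push_cast; rw [e0, sub_self]
    have d1 : ((b - x 1 : ℤ) : ZMod M) = 0 := by push_cast; rw [e1, sub_self]
    rw [ZMod.intCast_zmod_eq_zero_iff_dvd] at d0 d1
    obtain ⟨u, hu⟩ := d0
    obtain ⟨w, hw⟩ := d1
    refine ⟨![u, w], ?_⟩
    funext i
    fin_cases i
    · simp only [g, Fin.zero_eta, Matrix.cons_val_zero]; linarith
    · simp only [g, Fin.mk_one, Matrix.cons_val_one, Matrix.cons_val_zero]; linarith
  have h1 : G M 3 ![(a : ZMod M), (b : ZMod M)] τ =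
      ∑' v : Fin 2 → ℤ, eisSummand 3 (g v) τ := by
    change ∑' x : Fin 2 → ℤ, rcls M ![(a : ZMod M), (b : ZMod M)] x * eisSummand 3 x τ = _
    rw [← hinj.tsum_eq hsupp]
    refine tsum_congr fun v => ?_
    have : (fun i => ((g v i : ℤ) : ZMod M)) = ![(a : ZMod M), (b : ZMod M)] := by
      funext i
      fin_cases i
      · simp [g]
      · simp [g]
    rw [rcls, if_pos this, one_mul]
  rw [h1, PeriodPair.derivWeierstrassP,
    ← (pairOf τ 1 one_ne_zero).latticeEquivProd.symm.toEquiv.tsum_eq,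
    ← (finTwoArrowEquiv ℤ).tsum_eq, ← tsum_neg, ← tsum_mul_left]
  refine tsum_congr fun v => ?_
  have h4 : (((pairOf τ 1 one_ne_zero).latticeEquivProd.symm.toEquiv (finTwoArrowEquiv ℤ v) :
      (pairOf τ 1 one_ne_zero).lattice) : ℂ) = (v 0 * τ + v 1) := by
    rw [LinearEquiv.coe_toEquiv, PeriodPair.latticeEquiv_symm_apply]
    have e1 : (finTwoArrowEquiv ℤ v).1 = v 0 := rfl
    have e2 : (finTwoArrowEquiv ℤ v).2 = v 1 := rfl
    rw [e1, e2]
    simp only [pairOf]
    ring
  rw [h4, eisSummand]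
  have e0 : g v 0 = a - M * v 0 := rfl
  have e1 : g v 1 = b - M * v 1 := rfl
  rw [e0, e1]
  have h5 : (((a - M * v 0 : ℤ) : ℂ) * τ + ((b - M * v 1 : ℤ) : ℂ)) =
      M * ((a * τ + b) / M - (v 0 * τ + v 1)) := by
    push_cast
    field_simp
    ring
  rw [h5, _root_.zpow_neg]
  norm_cast
  rw [mul_pow, mul_inv]
  push_cast
  ring

/-- **Nonvanishing of the Eisenstein series of weight three.** -/
theorem G_three_ne_zero (M : ℕ) [NeZero M] {v : Fin 2 → ZMod M} (hv : 2 • v ≠ 0) (τ : ℍ) :
    G M 3 v τ ≠ 0 := by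
  have hM : (M : ℂ) ≠ 0 := by exact_mod_cast NeZero.ne M
  have hMR : (M : ℝ) ≠ 0 := by exact_mod_cast NeZero.ne M
  obtain ⟨a, ha⟩ := ZMod.intCast_surjective (v 0)
  obtain ⟨b, hb⟩ := ZMod.intCast_surjective (v 1)
  have hvab : v = ![(a : ZMod M), (b : ZMod M)] := by
    funext i
    fin_cases i
    · exact ha.symm
    · exact hb.symm
  -- lattice membership
  have key : ∀ c : ℤ, (c : ℂ) * ((a * τ + b) / M) ∈ (pairOf τ 1 one_ne_zero).lattice → c • v = 0 := by
    intro c hc
    rw [mem_pairOf] at hc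
    obtain ⟨m, n, h⟩ := hc
    rw [one_mul] at h
    have h1 : (((c * a - M * m : ℤ) : ℝ) : ℂ) * τ + (((c * b - M * n : ℤ) : ℝ) : ℂ) = 0 := by
      have h2 : ((m : ℂ) * τ + n) * M = c * (a * τ + b) := by
        rw [h]; field_simp
      push_cast
      linear_combination -h2
    have him := congrArg Complex.im h1
    have hre := congrArg Complex.re h1
    simp only [Complex.add_im, Complex.mul_im, Complex.ofReal_re, Complex.ofReal_im, zero_mul,
      add_zero, Complex.zero_im, Complex.add_re, Complex.mul_re, sub_zero, Complex.zero_re] at him hre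
    have h3 : ((c * a - M * m : ℤ) : ℝ) = 0 := by
      rcases mul_eq_zero.mp him with h | h
      · exact h
      · exact absurd h τ.im_pos.ne'
    rw [h3, zero_mul, zero_add] at hre
    have h4 : c * a = M * m := by
      have : c * a - M * m = 0 := by exact_mod_cast h3
      linarith
    have h5 : c * b = M * n := by
      have : c * b - M * n = 0 := by exact_mod_cast hre
      linarith
    have h6 : ((c * a : ℤ) : ZMod M) = 0 := by rw [h4]; push_cast; simp
    have h7 : ((c * b : ℤ) : ZMod M) = 0 := by rw [h5]; push_cast; simp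
    rw [hvab]
    funext i
    fin_cases i
    · simpa using h6
    · simpa using h7
  rw [hvab, G_three_eq]
  apply mul_ne_zero
  · apply mul_ne_zero (by norm_num)
    exact inv_ne_zero (pow_ne_zero _ hM)
  · apply derivP_ne_zero
    · intro h
      apply hv
      have h1 := key 1 (by simpa using h)
      rw [one_smul] at h1
      rw [h1, smul_zero]
    · intro h
      apply hv
      have h1 := key 2 (by exact_mod_cast h)
      have : (2 : ℕ) • v = (2 : ℤ) • v := by
        rw [← natCast_zsmul]; rfl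
      rw [this]
      exact h1

end

end Fermat.Agent.DSP
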